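import Fermat.Agent.S53.Defs

/-!
# S53, package M: the matrix dictionary

Lemmas relating `Fermat.Agent.S53.ofMat` to `GaloisRepAdic.IsEquiv`, base change and residual
representations.  The eight main theorems have exactly the statements of the package-M
interface; auxiliary material lives in the sub-namespace `PM`.
-/

set_option autoImplicit false
set_option linter.unusedSectionVars false

open scoped TensorProduct

namespace Fermat.Agent.S53.H85

open IsLocalRing Fermat.Agent.S53

namespace PM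

section Gen

variable {A : Type} [CommRing A]

/-- The linear automorphism of `A²` attached to an invertible matrix. -/
noncomputable def linEquivOfUnit (g : (M2 A)ˣ) : (Fin 2 → A) ≃ₗ[A] (Fin 2 → A) :=
  LinearEquiv.ofLinearMap (Matrix.toLin' (g : M2 A)) (Matrix.toLin' ((g⁻¹ : (M2 A)ˣ) : M2 A))
    (by rw [← Matrix.toLin'_mul, Units.mul_inv, Matrix.toLin'_one])
    (by rw [← Matrix.toLin'_mul, Units.inv_mul, Matrix.toLin'_one])

theorem linEquivOfUnit_apply (g : (M2 A)ˣ) (x : Fin 2 → A) :
    linEquivOfUnit g x = (g : M2 A).mulVec x := rfl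

/-- The invertible matrix of a linear automorphism of `A²`. -/
noncomputable def unitOfLinEquiv (e : (Fin 2 → A) ≃ₗ[A] (Fin 2 → A)) : (M2 A)ˣ :=
  ⟨LinearMap.toMatrix' (e : (Fin 2 → A) →ₗ[A] (Fin 2 → A)),
    LinearMap.toMatrix' (e.symm : (Fin 2 → A) →ₗ[A] (Fin 2 → A)),
    by rw [← LinearMap.toMatrix'_comp, LinearEquiv.comp_coe, LinearEquiv.symm_trans_self,
        LinearEquiv.refl_toLinearMap, LinearMap.toMatrix'_id],
    by rw [← LinearMap.toMatrix'_comp, LinearEquiv.comp_coe, LinearEquiv.self_trans_symm,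
        LinearEquiv.refl_toLinearMap, LinearMap.toMatrix'_id]⟩

theorem unitOfLinEquiv_mulVec (e : (Fin 2 → A) ≃ₗ[A] (Fin 2 → A)) (x : Fin 2 → A) :
    ((unitOfLinEquiv e : (M2 A)ˣ) : M2 A).mulVec x = e x := by
  show (LinearMap.toMatrix' (e : (Fin 2 → A) →ₗ[A] (Fin 2 → A))).mulVec x = e x
  rw [← Matrix.toLin'_apply, Matrix.toLin'_toMatrix']
  rfl

theorem piScalarRight_baseChange_toLin' {A B : Type} [CommRing A] [CommRing B] [Algebra A B]
    (M : M2 A) (x : B ⊗[A] (Fin 2 → A)) :
    TensorProduct.piScalarRight A B B (Fin 2) ((Matrix.toLin' M).baseChange B x) =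
      ((algebraMap A B).mapMatrix M).mulVec (TensorProduct.piScalarRight A B B (Fin 2) x) := by
  induction x using TensorProduct.induction_on with
  | zero => simp only [map_zero, Matrix.mulVec_zero]
  | tmul b v =>
    rw [LinearMap.baseChange_tmul, TensorProduct.piScalarRight_apply,
      TensorProduct.piScalarRightHom_tmul, TensorProduct.piScalarRight_apply,
      TensorProduct.piScalarRightHom_tmul]
    ext i
    simp only [Matrix.toLin'_apply, Matrix.mulVec, dotProduct, RingHom.mapMatrix_apply,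
      Matrix.map_apply, Algebra.smul_def, map_sum, map_mul, Finset.sum_mul]
    refine Finset.sum_congr rfl fun j _ => ?_
    ring
  | add x y hx hy => simp only [map_add, Matrix.mulVec_add, hx, hy]

end Gen

section Adic

variable {A : Type} [CommRing A] [IsLocalRing A]

/-- Matrices of a representation in a basis. -/
noncomputable def matOf (ρ : GaloisRepAdic A) (b : Module.Basis (Fin 2) A ρ.V) : GQ →* M2 A :=
  ((LinearMap.toMatrixAlgEquiv b : Module.End A ρ.V ≃ₐ[A] M2 A) : Module.End A ρ.V →* M2 A).comp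
    ρ.ρ

theorem matOf_apply (ρ : GaloisRepAdic A) (b : Module.Basis (Fin 2) A ρ.V) (σ : GQ) :
    matOf ρ b σ = LinearMap.toMatrix b b (ρ.ρ σ) := rfl

theorem repr_mem_of_mem_smul_top {M : Type} [AddCommGroup M] [Module A M]
    (b : Module.Basis (Fin 2) A M) (I : Ideal A) {x : M}
    (hx : x ∈ I • (⊤ : Submodule A M)) (i : Fin 2) : b.repr x i ∈ I := by
  refine Submodule.smul_induction_on hx ?_ ?_
  · intro a ha w _
    simpa using I.mul_mem_right (b.repr w i) ha
  · intro x y hx hy
    simpa using I.add_mem hx hy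

theorem matCont_matOf (ρ : GaloisRepAdic A) (b : Module.Basis (Fin 2) A ρ.V) :
    MatCont (matOf ρ b) := by
  intro n
  obtain ⟨L, hL, h⟩ := ρ.isAdicContinuous n
  refine ⟨L, hL, fun σ hσ i j => ?_⟩
  have : (matOf ρ b σ - 1) i j = b.repr (ρ.ρ σ (b j) - b j) i := by
    rw [matOf_apply, Matrix.sub_apply, LinearMap.toMatrix_apply, map_sub, Finsupp.sub_apply,
      Module.Basis.repr_self, Matrix.one_apply, Finsupp.single_apply]
    simp [eq_comm]
  rw [this]
  exact repr_mem_of_mem_smul_top b _ (h σ hσ (b j)) i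

/-- Every adic representation is equivalent to the matrix representation in any basis. -/
noncomputable def equivOfMatMatOf (ρ : GaloisRepAdic A) (b : Module.Basis (Fin 2) A ρ.V) :
    GaloisRepAdic.Equiv ρ (ofMat (matOf ρ b) (matCont_matOf ρ b)) where
  toLinearEquiv := b.equivFun
  map_apply σ x := by
    show b.equivFun (ρ.ρ σ x) = (matOf ρ b σ).mulVec (b.equivFun x)
    rw [matOf_apply]
    exact (LinearMap.toMatrix_mulVec_repr b b (ρ.ρ σ) x).symm

/-- Conjugate matrix representations are equivalent. -/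
noncomputable def equivOfConj {r r' : GQ →* M2 A} (hr : MatCont r)
    (hr' : MatCont r') (g : (M2 A)ˣ) (hg : ∀ σ, (g : M2 A) * r σ = r' σ * g) :
    GaloisRepAdic.Equiv (ofMat r hr) (ofMat r' hr') where
  toLinearEquiv := linEquivOfUnit g
  map_apply σ x := by
    show linEquivOfUnit g ((r σ).mulVec x) = (r' σ).mulVec (linEquivOfUnit g x)
    rw [linEquivOfUnit_apply, linEquivOfUnit_apply, Matrix.mulVec_mulVec, Matrix.mulVec_mulVec,
      hg σ]

/-- Base change of a matrix representation is the matrix representation of the image. -/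
noncomputable def equivBaseChangeAlongOfMat {B : Type} [CommRing B] [IsLocalRing B]
    {r : GQ →* M2 A} (hr : MatCont r) (φ : A →+* B) (hφ : IsLocalHom φ)
    (hr' : MatCont (mapMat φ r)) :
    GaloisRepAdic.Equiv ((ofMat r hr).baseChangeAlong φ hφ) (ofMat (mapMat φ r) hr') :=
  letI : Algebra A B := φ.toAlgebra
  { toLinearEquiv := TensorProduct.piScalarRight A B B (Fin 2)
    map_apply := fun σ x => piScalarRight_baseChange_toLin' (r σ) x }

end Adic

section Residual

variable {k : Type} [Field k]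

/-- The monoid hom into endomorphisms of `k²` attached to a matrix-valued hom. -/
noncomputable def resLinOfMat (rbar : GQ →* M2 k) : GQ →* Module.End k (Fin 2 → k) :=
  ((Matrix.toLinAlgEquiv' : M2 k ≃ₐ[k] Module.End k (Fin 2 → k)) : M2 k →* _).comp rbar

theorem factors_resLinOfMat {rbar : GQ →* M2 k} (h : GaloisFactorsThroughFiniteLevel rbar) :
    GaloisFactorsThroughFiniteLevel (resLinOfMat rbar) := by
  obtain ⟨L, hL, h1⟩ := h
  refine ⟨L, hL, fun σ hσ => ?_⟩
  show (Matrix.toLinAlgEquiv' : M2 k ≃ₐ[k] Module.End k (Fin 2 → k)) (rbar σ) = 1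
  rw [h1 σ hσ, map_one]

/-- The residual representation on `k²` attached to a matrix-valued hom. -/
noncomputable def resOfMat (rbar : GQ →* M2 k) (h : GaloisFactorsThroughFiniteLevel rbar) :
    ResidualGaloisRep k where
  V := Fin 2 → k
  finrank_eq := by simp
  ρ := resLinOfMat rbar
  factorsThroughFiniteLevel := factors_resLinOfMat h

theorem factors_rbarOf (ρ : ResidualGaloisRep k) (b : Module.Basis (Fin 2) k ρ.V) :
    GaloisFactorsThroughFiniteLevel (rbarOf ρ b) := by
  obtain ⟨L, hL, h1⟩ := ρ.factorsThroughFiniteLevel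
  refine ⟨L, hL, fun σ hσ => ?_⟩
  show (LinearMap.toMatrixAlgEquiv b : Module.End k ρ.V ≃ₐ[k] M2 k) (ρ.ρ σ) = 1
  rw [h1 σ hσ, map_one]

/-- Every residual representation is equivalent to its matrix representation in any basis. -/
noncomputable def equivResOfMatRbarOf (ρ : ResidualGaloisRep k)
    (b : Module.Basis (Fin 2) k ρ.V) :
    ResidualGaloisRep.Equiv ρ (resOfMat (rbarOf ρ b) (factors_rbarOf ρ b)) where
  toLinearEquiv := b.equivFun
  map_apply σ x := by
    show b.equivFun (ρ.ρ σ x) = (rbarOf ρ b σ).mulVec (b.equivFun x)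
    rw [rbarOf_apply]
    exact (LinearMap.toMatrix_mulVec_repr b b (ρ.ρ σ) x).symm

/-- Equal residual matrix representations are equivalent. -/
noncomputable def resEquivOfEq {r r' : GQ →* M2 k} (hr : GaloisFactorsThroughFiniteLevel r)
    (hr' : GaloisFactorsThroughFiniteLevel r') (h : ∀ σ, r σ = r' σ) :
    ResidualGaloisRep.Equiv (resOfMat r hr) (resOfMat r' hr') where
  toLinearEquiv := LinearEquiv.refl k (Fin 2 → k)
  map_apply σ x := by
    show (r σ).mulVec x = (r' σ).mulVec x
    rw [h σ]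

theorem factors_mapMat {k' : Type} [Field k'] {rbar : GQ →* M2 k}
    (h : GaloisFactorsThroughFiniteLevel rbar) (ψ : k →+* k') :
    GaloisFactorsThroughFiniteLevel (mapMat ψ rbar) := by
  obtain ⟨L, hL, h1⟩ := h
  refine ⟨L, hL, fun σ hσ => ?_⟩
  show ψ.mapMatrix (rbar σ) = 1
  rw [h1 σ hσ, map_one]

/-- Base change of a residual matrix representation. -/
noncomputable def equivBaseChangeAlongResOfMat {k' : Type} [Field k'] {rbar : GQ →* M2 k}
    (h : GaloisFactorsThroughFiniteLevel rbar) (ψ : k →+* k') :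
    ResidualGaloisRep.Equiv ((resOfMat rbar h).baseChangeAlong ψ)
      (resOfMat (mapMat ψ rbar) (factors_mapMat h ψ)) :=
  letI : Algebra k k' := ψ.toAlgebra
  { toLinearEquiv := TensorProduct.piScalarRight k k' k' (Fin 2)
    map_apply := fun σ x => piScalarRight_baseChange_toLin' (rbar σ) x }

end Residual

section AdicResidual

variable {A : Type} [CommRing A] [IsLocalRing A]

theorem factors_residue_comp {r : GQ →* M2 A} (hr : MatCont r) :
    GaloisFactorsThroughFiniteLevel (mapMat (residue A) r) := by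
  obtain ⟨L, hL, h⟩ := hr 1
  refine ⟨L, hL, fun σ hσ => ?_⟩
  ext i j
  have h1 := h σ hσ i j
  rw [pow_one, ← residue_eq_zero_iff, Matrix.sub_apply, map_sub, sub_eq_zero] at h1
  rw [mapMat_apply, h1, Matrix.one_apply, Matrix.one_apply]
  split_ifs <;> simp

/-- The residual representation of a matrix representation is the matrix representation of the
reduction. -/
noncomputable def equivResidualOfMat {r : GQ →* M2 A} (hr : MatCont r) :
    ResidualGaloisRep.Equiv (ofMat r hr).residual
      (resOfMat (mapMat (residue A) r) (factors_residue_comp hr)) where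
  toLinearEquiv := TensorProduct.piScalarRight A (ResidueField A) (ResidueField A) (Fin 2)
  map_apply σ x := piScalarRight_baseChange_toLin' (r σ) x

/-- Nakayama: if the residual representation of `ρ` is equivalent to the matrix representation
`rbar`, then `ρ` has a basis in which its matrices reduce exactly to `rbar`. -/
theorem exists_basis_lifting (ρ : GaloisRepAdic A) {rbar : GQ →* M2 (ResidueField A)}
    (h : GaloisFactorsThroughFiniteLevel rbar)
    (e : ResidualGaloisRep.Equiv ρ.residual (resOfMat rbar h)) :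
    ∃ b : Module.Basis (Fin 2) A ρ.V, ∀ σ i j, residue A (matOf ρ b σ i j) = rbar σ i j := by
  let e' : (ResidueField A ⊗[A] ρ.V) ≃ₗ[ResidueField A] (Fin 2 → ResidueField A) :=
    e.toLinearEquiv
  have he : ∀ (σ : GQ) (x : ResidueField A ⊗[A] ρ.V),
      e' ((ρ.ρ σ).baseChange (ResidueField A) x) = (rbar σ).mulVec (e' x) :=
    fun σ x => e.map_apply σ x
  let bk : Module.Basis (Fin 2) (ResidueField A) (ResidueField A ⊗[A] ρ.V) :=
    (Pi.basisFun (ResidueField A) (Fin 2)).map e'.symm
  have hsurj : Function.Surjective (TensorProduct.mk A (ResidueField A) ρ.V 1) :=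
    TensorProduct.mk_surjective A ρ.V (ResidueField A) residue_surjective
  choose v hv using fun i => hsurj (bk i)
  have hcomp : (TensorProduct.mk A (ResidueField A) ρ.V 1 ∘ v) = bk := funext hv
  have hli : LinearIndependent A v :=
    Module.IsLocalRing.linearIndependent_of_flat v (by rw [hcomp]; exact bk.linearIndependent)
  have hsp : Submodule.span A (Set.range v) = ⊤ :=
    IsLocalRing.span_eq_top_of_tmul_eq_basis v bk (fun i => hv i)
  let b : Module.Basis (Fin 2) A ρ.V := Module.Basis.mk hli hsp.ge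
  have hb : ∀ i, b i = v i := fun i => Module.Basis.mk_apply hli hsp.ge i
  refine ⟨b, fun σ i j => ?_⟩
  -- the `A`-linear map `x ↦ e' (1 ⊗ x)`
  let ψ : ρ.V →ₗ[A] (Fin 2 → ResidueField A) :=
    (e'.toLinearMap.restrictScalars A).comp (TensorProduct.mk A (ResidueField A) ρ.V 1)
  have hψ : ∀ x, ψ x = e' ((1 : ResidueField A) ⊗ₜ[A] x) := fun x => rfl
  have hψb : ∀ i, ψ (b i) = Pi.single i 1 := by
    intro i
    rw [hψ, hb]
    have : (1 : ResidueField A) ⊗ₜ[A] v i = bk i := hv i
    rw [this]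
    simp [bk]
  rw [matOf_apply, LinearMap.toMatrix_apply]
  have h1 : ψ (ρ.ρ σ (b j)) = fun i => rbar σ i j := by
    rw [hψ]
    have : (1 : ResidueField A) ⊗ₜ[A] (ρ.ρ σ (b j)) =
        (ρ.ρ σ).baseChange (ResidueField A) ((1 : ResidueField A) ⊗ₜ[A] b j) := by
      rw [LinearMap.baseChange_tmul]
    rw [this, he, ← hψ, hψb]
    ext i
    simp [Matrix.mulVec_single]
  have h2 : ψ (ρ.ρ σ (b j)) = fun i => residue A (b.repr (ρ.ρ σ (b j)) i) := by
    conv_lhs => rw [← b.sum_repr (ρ.ρ σ (b j))]
    rw [map_sum]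
    ext i
    simp only [map_smul, hψb, Finset.sum_apply, Pi.smul_apply, Pi.single_apply, smul_ite,
      smul_zero, Finset.sum_ite_eq, Finset.mem_univ, if_true]
    rw [Algebra.smul_def, mul_one]
    rfl
  exact congrFun (h2.symm.trans h1) i

end AdicResidual

end PM

/-! ## The interface theorems of package M -/

section M

variable {A : Type} [CommRing A] [IsLocalRing A]

/-- M0: continuity is preserved by local homomorphisms. -/
theorem matCont_mapMat {B : Type} [CommRing B] [IsLocalRing B] (φ : A →+* B)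
    (hφ : IsLocalHom φ) {r : GQ →* M2 A} (hr : MatCont r) : MatCont (mapMat φ r) := by
  intro n
  obtain ⟨L, hL, h⟩ := hr n
  refine ⟨L, hL, fun σ hσ i j => ?_⟩
  have hmap : (maximalIdeal A ^ n).map φ ≤ maximalIdeal B ^ n := by
    rw [Ideal.map_pow]
    exact Ideal.pow_right_mono (Ideal.map_le_iff_le_comap.mpr fun a ha =>
      Ideal.mem_comap.mpr (haveI := hφ; map_nonunit φ a ha)) n
  have : (mapMat φ r σ - 1) i j = φ ((r σ - 1) i j) := by
    simp [Matrix.one_apply, apply_ite φ]
  rw [this]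
  exact hmap (Ideal.mem_map_of_mem φ (h σ hσ i j))

/-- M1a: conjugate matrix representations give equivalent `GaloisRepAdic`s. -/
theorem ofMat_isEquiv_of_conj {r r' : GQ →* M2 A} (hr : MatCont r) (hr' : MatCont r')
    (g : (M2 A)ˣ) (hg : ∀ σ, (g : M2 A) * r σ = r' σ * g) :
    (ofMat r hr).IsEquiv (ofMat r' hr') :=
  ⟨PM.equivOfConj hr hr' g hg⟩

/-- M1b: equivalent `ofMat`s are conjugate. -/
theorem exists_conj_of_ofMat_isEquiv {r r' : GQ →* M2 A} (hr : MatCont r) (hr' : MatCont r')
    (h : (ofMat r hr).IsEquiv (ofMat r' hr')) :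
    ∃ g : (M2 A)ˣ, ∀ σ, (g : M2 A) * r σ = r' σ * g := by
  obtain ⟨e⟩ := h
  let e' : (Fin 2 → A) ≃ₗ[A] (Fin 2 → A) := e.toLinearEquiv
  have he : ∀ σ (x : Fin 2 → A), e' ((r σ).mulVec x) = (r' σ).mulVec (e' x) :=
    fun σ x => e.map_apply σ x
  refine ⟨PM.unitOfLinEquiv e', fun σ => ?_⟩
  apply Matrix.toLin'.injective
  refine LinearMap.ext fun x => ?_
  rw [Matrix.toLin'_apply, Matrix.toLin'_apply, ← Matrix.mulVec_mulVec, ← Matrix.mulVec_mulVec,
    PM.unitOfLinEquiv_mulVec, PM.unitOfLinEquiv_mulVec]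
  exact he σ x

/-- M2: base change of `ofMat` is `ofMat` of the pushed-forward matrices. -/
theorem baseChangeAlong_ofMat_isEquiv {B : Type} [CommRing B] [IsLocalRing B] (φ : A →+* B)
    (hφ : IsLocalHom φ) {r : GQ →* M2 A} (hr : MatCont r) (hr' : MatCont (mapMat φ r)) :
    ((ofMat r hr).baseChangeAlong φ hφ).IsEquiv (ofMat (mapMat φ r) hr') :=
  ⟨PM.equivBaseChangeAlongOfMat hr φ hφ hr'⟩

/-- M3: every `GaloisRepAdic` whose residual representation is (equivalent to) the base change
of `ρbar` is equivalent to `ofMat r` for some `r` reducing exactly to `rbarOf ρbar b`. -/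
theorem exists_ofMat_isEquiv {k : Type} [Field k] (ρbar : ResidualGaloisRep k)
    (b : Module.Basis (Fin 2) k ρbar.V) (ψ : k →+* IsLocalRing.ResidueField A)
    (ρ : GaloisRepAdic A) (h : ρ.residual.IsEquiv (ρbar.baseChangeAlong ψ)) :
    ∃ (r : GQ →* M2 A) (hr : MatCont r), (ofMat r hr).IsEquiv ρ ∧
      ∀ σ i j, IsLocalRing.residue A (r σ i j) = ψ (rbarOf ρbar b σ i j) := by
  obtain ⟨e⟩ := h
  have e1 : ResidualGaloisRep.Equiv (ρbar.baseChangeAlong ψ)
      (PM.resOfMat (mapMat ψ (rbarOf ρbar b)) (PM.factors_mapMat (PM.factors_rbarOf ρbar b) ψ)) :=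
    ((PM.equivResOfMatRbarOf ρbar b).baseChangeAlong ψ).trans
      (PM.equivBaseChangeAlongResOfMat (PM.factors_rbarOf ρbar b) ψ)
  obtain ⟨bA, hbA⟩ := PM.exists_basis_lifting ρ _ (e.trans e1)
  exact ⟨PM.matOf ρ bA, PM.matCont_matOf ρ bA, ⟨(PM.equivOfMatMatOf ρ bA).symm⟩, hbA⟩

/-- M4: converse of M3. -/
theorem residual_ofMat_isEquiv {k : Type} [Field k] (ρbar : ResidualGaloisRep k)
    (b : Module.Basis (Fin 2) k ρbar.V) (ψ : k →+* IsLocalRing.ResidueField A)
    (r : GQ →* M2 A) (hr : MatCont r)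
    (h : ∀ σ i j, IsLocalRing.residue A (r σ i j) = ψ (rbarOf ρbar b σ i j)) :
    (ofMat r hr).residual.IsEquiv (ρbar.baseChangeAlong ψ) := by
  have e1 : ResidualGaloisRep.Equiv (ρbar.baseChangeAlong ψ)
      (PM.resOfMat (mapMat ψ (rbarOf ρbar b)) (PM.factors_mapMat (PM.factors_rbarOf ρbar b) ψ)) :=
    ((PM.equivResOfMatRbarOf ρbar b).baseChangeAlong ψ).trans
      (PM.equivBaseChangeAlongResOfMat (PM.factors_rbarOf ρbar b) ψ)
  have e3 : ResidualGaloisRep.Equiv
      (PM.resOfMat (mapMat (residue A) r) (PM.factors_residue_comp hr))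
      (PM.resOfMat (mapMat ψ (rbarOf ρbar b))
        (PM.factors_mapMat (PM.factors_rbarOf ρbar b) ψ)) :=
    PM.resEquivOfEq _ _ fun σ => by
      ext i j
      exact h σ i j
  exact ⟨((PM.equivResidualOfMat hr).trans e3).trans e1.symm⟩

/-- M5a: the matrix representation of a residual representation is continuous. -/
theorem matCont_rbarOf {k : Type} [Field k] (ρbar : ResidualGaloisRep k)
    (b : Module.Basis (Fin 2) k ρbar.V) : MatCont (rbarOf ρbar b) := by
  intro n
  obtain ⟨L, hL, h1⟩ := PM.factors_rbarOf ρbar b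
  refine ⟨L, hL, fun σ hσ i j => ?_⟩
  rw [h1 σ hσ, sub_self]
  exact Ideal.zero_mem _

/-- M5b: over the residue field, `ofMat (rbarOf ρbar b)` is `ρbar` itself. -/
theorem ofMat_rbarOf_isEquiv {k : Type} [Field k] (ρbar : ResidualGaloisRep k)
    (b : Module.Basis (Fin 2) k ρbar.V) (hr : MatCont (rbarOf ρbar b)) :
    (ofMat (rbarOf ρbar b) hr).IsEquiv (GaloisRepAdic.ofResidualGaloisRep ρbar) := by
  have e : GaloisRepAdic.Equiv (GaloisRepAdic.ofResidualGaloisRep ρbar)
      (ofMat (rbarOf ρbar b) hr) :=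
    { toLinearEquiv := b.equivFun
      map_apply := fun σ x => by
        show b.equivFun (ρbar.ρ σ x) = (rbarOf ρbar b σ).mulVec (b.equivFun x)
        rw [rbarOf_apply]
        exact (LinearMap.toMatrix_mulVec_repr b b (ρbar.ρ σ) x).symm }
  exact ⟨e.symm⟩

end M

end Fermat.Agent.S53.H85
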