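import Mathlib
import Fermat.Prelude.Def_GaloisRep_Adic

set_option autoImplicit false
set_option linter.unusedSectionVars false

open scoped TensorProduct

namespace Fermat.Agent.S53.H85

open IsLocalRing

/-- The absolute Galois group of `ℚ`. -/
abbrev Gal : Type := AlgebraicClosure ℚ ≃ₐ[ℚ] AlgebraicClosure ℚ

/-- `2 × 2` matrices. -/
abbrev M2 (A : Type) : Type := Matrix (Fin 2) (Fin 2) A

section Gen

variable {A : Type} [CommRing A]

/-- The linear automorphism of `A²` attached to an invertible matrix. -/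
noncomputable def linEquivOfUnit (g : (M2 A)ˣ) : (Fin 2 → A) ≃ₗ[A] (Fin 2 → A) :=
  LinearEquiv.ofLinearMap (Matrix.toLin' (g : M2 A)) (Matrix.toLin' ((g⁻¹ : (M2 A)ˣ) : M2 A))
    (by rw [← Matrix.toLin'_mul, Units.mul_inv, Matrix.toLin'_one])
    (by rw [← Matrix.toLin'_mul, Units.inv_mul, Matrix.toLin'_one])

theorem linEquivOfUnit_apply (g : (M2 A)ˣ) (x : Fin 2 → A) :
    linEquivOfUnit g x = (g : M2 A).mulVec x := rfl

/-- The invertible matrix of a linear automorphism of `A²`. -/
noncomputable def unitOfLinEquiv (e : (Fin 2 → A) ≃ₗ[A] (Fin 2 → A)) : (M2 A)ˣ :=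
  ⟨LinearMap.toMatrix' (e : (Fin 2 → A) →ₗ[A] (Fin 2 → A)),
    LinearMap.toMatrix' (e.symm : (Fin 2 → A) →ₗ[A] (Fin 2 → A)),
    by rw [← LinearMap.toMatrix'_comp, LinearEquiv.comp_coe, LinearEquiv.symm_trans_self,
        LinearEquiv.refl_toLinearMap, LinearMap.toMatrix'_id],
    by rw [← LinearMap.toMatrix'_comp, LinearEquiv.comp_coe, LinearEquiv.self_trans_symm,
        LinearEquiv.refl_toLinearMap, LinearMap.toMatrix'_id]⟩

theorem unitOfLinEquiv_mulVec (e : (Fin 2 → A) ≃ₗ[A] (Fin 2 → A)) (x : Fin 2 → A) :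
    ((unitOfLinEquiv e : (M2 A)ˣ) : M2 A).mulVec x = e x := by
  show (LinearMap.toMatrix' (e : (Fin 2 → A) →ₗ[A] (Fin 2 → A))).mulVec x = e x
  rw [← Matrix.toLin'_apply, Matrix.toLin'_toMatrix']
  rfl

theorem piScalarRight_baseChange_toLin' {A B : Type} [CommRing A] [CommRing B] [Algebra A B]
    (M : M2 A) (x : B ⊗[A] (Fin 2 → A)) :
    TensorProduct.piScalarRight A B B (Fin 2) ((Matrix.toLin' M).baseChange B x) =
      ((algebraMap A B).mapMatrix M).mulVec (TensorProduct.piScalarRight A B B (Fin 2) x) := by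
  induction x using TensorProduct.induction_on with
  | zero => simp only [map_zero, Matrix.mulVec_zero]
  | tmul b v =>
    rw [LinearMap.baseChange_tmul, TensorProduct.piScalarRight_apply,
      TensorProduct.piScalarRightHom_tmul, TensorProduct.piScalarRight_apply,
      TensorProduct.piScalarRightHom_tmul]
    ext i
    simp only [Matrix.toLin'_apply, Matrix.mulVec, dotProduct, RingHom.mapMatrix_apply,
      Matrix.map_apply, Algebra.smul_def, map_sum, map_mul, Finset.sum_mul]
    refine Finset.sum_congr rfl fun j _ => ?_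
    ring
  | add x y hx hy => simp only [map_add, Matrix.mulVec_add, hx, hy]

end Gen

section Adic

variable {A : Type} [CommRing A] [IsLocalRing A]

/-- Adic continuity of a matrix-valued homomorphism. -/
def MatContinuous (r : Gal →* M2 A) : Prop :=
  ∀ n : ℕ, ∃ L : IntermediateField ℚ (AlgebraicClosure ℚ), FiniteDimensional ℚ L ∧
    ∀ σ : Gal, (∀ x ∈ L, σ x = x) → ∀ i j, (r σ - 1) i j ∈ maximalIdeal A ^ n

/-- The monoid hom into endomorphisms of `Fin 2 → A` attached to a matrix-valued hom. -/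
noncomputable def linOfMat (r : Gal →* M2 A) : Gal →* Module.End A (Fin 2 → A) :=
  ((Matrix.toLinAlgEquiv' : M2 A ≃ₐ[A] Module.End A (Fin 2 → A)) : M2 A →* _).comp r

theorem linOfMat_apply (r : Gal →* M2 A) (σ : Gal) (v : Fin 2 → A) :
    linOfMat r σ v = (r σ).mulVec v := rfl

theorem mem_smul_top_pi_iff (I : Ideal A) (v : Fin 2 → A) :
    v ∈ I • (⊤ : Submodule A (Fin 2 → A)) ↔ ∀ i, v i ∈ I := by
  constructor
  · intro hv i
    refine Submodule.smul_induction_on hv ?_ ?_
    · intro a ha w _
      simpa using I.mul_mem_right (w i) ha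
    · intro x y hx hy
      simpa using I.add_mem hx hy
  · intro hv
    have : v = ∑ i, v i • (Pi.single i (1 : A) : Fin 2 → A) := by
      ext j
      simp [Finset.sum_apply, Pi.single_apply]
    rw [this]
    exact Submodule.sum_mem _ fun i _ => Submodule.smul_mem_smul (hv i) Submodule.mem_top

theorem isAdicContinuous_linOfMat {r : Gal →* M2 A} (hr : MatContinuous r) :
    GaloisActionIsAdicContinuous A (linOfMat r) := by
  intro n
  obtain ⟨L, hL, h⟩ := hr n
  refine ⟨L, hL, fun σ hσ v => ?_⟩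
  rw [mem_smul_top_pi_iff]
  intro i
  have : (linOfMat r σ v - v) i = ∑ j, (r σ - 1) i j * v j := by
    rw [linOfMat_apply]
    have h1 : (r σ).mulVec v - v = (r σ - 1).mulVec v := by
      rw [Matrix.sub_mulVec, Matrix.one_mulVec]
    rw [h1]
    rfl
  rw [this]
  exact Ideal.sum_mem _ fun j _ => Ideal.mul_mem_right _ _ (h σ hσ i j)

/-- The adic Galois representation on `A²` attached to a continuous matrix-valued hom. -/
noncomputable def ofMat (r : Gal →* M2 A) (hr : MatContinuous r) : GaloisRepAdic A where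
  V := Fin 2 → A
  finrank_eq := by simp
  ρ := linOfMat r
  isAdicContinuous := isAdicContinuous_linOfMat hr

/-- Matrices of a representation in a basis. -/
noncomputable def matOf (ρ : GaloisRepAdic A) (b : Module.Basis (Fin 2) A ρ.V) : Gal →* M2 A :=
  ((LinearMap.toMatrixAlgEquiv b : Module.End A ρ.V ≃ₐ[A] M2 A) : Module.End A ρ.V →* M2 A).comp ρ.ρ

theorem matOf_apply (ρ : GaloisRepAdic A) (b : Module.Basis (Fin 2) A ρ.V) (σ : Gal) :
    matOf ρ b σ = LinearMap.toMatrix b b (ρ.ρ σ) := rfl


theorem repr_mem_of_mem_smul_top {M : Type} [AddCommGroup M] [Module A M]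
    (b : Module.Basis (Fin 2) A M) (I : Ideal A) {x : M}
    (hx : x ∈ I • (⊤ : Submodule A M)) (i : Fin 2) : b.repr x i ∈ I := by
  refine Submodule.smul_induction_on hx ?_ ?_
  · intro a ha w _
    simpa using I.mul_mem_right (b.repr w i) ha
  · intro x y hx hy
    simpa using I.add_mem hx hy

theorem matContinuous_matOf (ρ : GaloisRepAdic A) (b : Module.Basis (Fin 2) A ρ.V) :
    MatContinuous (matOf ρ b) := by
  intro n
  obtain ⟨L, hL, h⟩ := ρ.isAdicContinuous n
  refine ⟨L, hL, fun σ hσ i j => ?_⟩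
  have : (matOf ρ b σ - 1) i j = b.repr (ρ.ρ σ (b j) - b j) i := by
    rw [matOf_apply, Matrix.sub_apply, LinearMap.toMatrix_apply, map_sub, Finsupp.sub_apply,
      Module.Basis.repr_self, Matrix.one_apply, Finsupp.single_apply]
    simp [eq_comm]
  rw [this]
  exact repr_mem_of_mem_smul_top b _ (h σ hσ (b j)) i

/-- Every adic representation is equivalent to the matrix representation in any basis. -/
noncomputable def equivOfMatMatOf (ρ : GaloisRepAdic A) (b : Module.Basis (Fin 2) A ρ.V) :
    GaloisRepAdic.Equiv ρ (ofMat (matOf ρ b) (matContinuous_matOf ρ b)) where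
  toLinearEquiv := b.equivFun
  map_apply σ x := by
    show b.equivFun (ρ.ρ σ x) = (matOf ρ b σ).mulVec (b.equivFun x)
    rw [matOf_apply]
    exact (LinearMap.toMatrix_mulVec_repr b b (ρ.ρ σ) x).symm

theorem isEquiv_ofMat_matOf (ρ : GaloisRepAdic A) (b : Module.Basis (Fin 2) A ρ.V) :
    ρ.IsEquiv (ofMat (matOf ρ b) (matContinuous_matOf ρ b)) :=
  ⟨equivOfMatMatOf ρ b⟩

theorem nonempty_basis (ρ : GaloisRepAdic A) : Nonempty (Module.Basis (Fin 2) A ρ.V) :=
  ⟨Module.finBasisOfFinrankEq A ρ.V ρ.finrank_eq⟩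

/-- Conjugate matrix representations are equivalent. -/
noncomputable def equivOfConj {r r' : Gal →* M2 A} (hr : MatContinuous r)
    (hr' : MatContinuous r') (g : (M2 A)ˣ) (hg : ∀ σ, (g : M2 A) * r σ = r' σ * g) :
    GaloisRepAdic.Equiv (ofMat r hr) (ofMat r' hr') where
  toLinearEquiv := linEquivOfUnit g
  map_apply σ x := by
    show linEquivOfUnit g ((r σ).mulVec x) = (r' σ).mulVec (linEquivOfUnit g x)
    rw [linEquivOfUnit_apply, linEquivOfUnit_apply, Matrix.mulVec_mulVec, Matrix.mulVec_mulVec,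
      hg σ]

/-- Equivalence of matrix representations is conjugacy. -/
theorem isEquiv_ofMat_iff {r r' : Gal →* M2 A} (hr : MatContinuous r) (hr' : MatContinuous r') :
    (ofMat r hr).IsEquiv (ofMat r' hr') ↔ ∃ g : (M2 A)ˣ, ∀ σ, (g : M2 A) * r σ = r' σ * g := by
  constructor
  · rintro ⟨e⟩
    let e' : (Fin 2 → A) ≃ₗ[A] (Fin 2 → A) := e.toLinearEquiv
    have he : ∀ σ (x : Fin 2 → A), e' ((r σ).mulVec x) = (r' σ).mulVec (e' x) :=
      fun σ x => e.map_apply σ x
    refine ⟨unitOfLinEquiv e', fun σ => ?_⟩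
    apply Matrix.toLin'.injective
    refine LinearMap.ext fun x => ?_
    rw [Matrix.toLin'_apply, Matrix.toLin'_apply, ← Matrix.mulVec_mulVec, ← Matrix.mulVec_mulVec,
      unitOfLinEquiv_mulVec, unitOfLinEquiv_mulVec]
    exact he σ x
  · rintro ⟨g, hg⟩
    exact ⟨equivOfConj hr hr' g hg⟩

section BaseChange

variable {B : Type} [CommRing B] [IsLocalRing B]

theorem MatContinuous.map {r : Gal →* M2 A} (hr : MatContinuous r) (φ : A →+* B)
    (hφ : IsLocalHom φ) :
    MatContinuous ((φ.mapMatrix : M2 A →+* M2 B).toMonoidHom.comp r) := by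
  intro n
  obtain ⟨L, hL, h⟩ := hr n
  refine ⟨L, hL, fun σ hσ i j => ?_⟩
  have hmap : (maximalIdeal A ^ n).map φ ≤ maximalIdeal B ^ n := by
    rw [Ideal.map_pow]
    exact Ideal.pow_right_mono (Ideal.map_le_iff_le_comap.mpr fun a ha =>
      Ideal.mem_comap.mpr (haveI := hφ; map_nonunit φ a ha)) n
  have : (((φ.mapMatrix : M2 A →+* M2 B).toMonoidHom.comp r) σ - 1) i j = φ ((r σ - 1) i j) := by
    simp [Matrix.one_apply, RingHom.mapMatrix_apply, apply_ite φ]
  rw [this]
  exact hmap (Ideal.mem_map_of_mem φ (h σ hσ i j))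

/-- Base change of a matrix representation is the matrix representation of the image. -/
noncomputable def equivBaseChangeAlongOfMat {r : Gal →* M2 A} (hr : MatContinuous r)
    (φ : A →+* B) (hφ : IsLocalHom φ) :
    GaloisRepAdic.Equiv ((ofMat r hr).baseChangeAlong φ hφ)
      (ofMat ((φ.mapMatrix : M2 A →+* M2 B).toMonoidHom.comp r) (hr.map φ hφ)) :=
  letI : Algebra A B := φ.toAlgebra
  { toLinearEquiv := TensorProduct.piScalarRight A B B (Fin 2)
    map_apply := fun σ x => piScalarRight_baseChange_toLin' (r σ) x }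

theorem baseChangeAlong_ofMat {r : Gal →* M2 A} (hr : MatContinuous r) (φ : A →+* B)
    (hφ : IsLocalHom φ) :
    ((ofMat r hr).baseChangeAlong φ hφ).IsEquiv
      (ofMat ((φ.mapMatrix : M2 A →+* M2 B).toMonoidHom.comp r) (hr.map φ hφ)) :=
  ⟨equivBaseChangeAlongOfMat hr φ hφ⟩

end BaseChange

end Adic

section Residual

variable {k : Type} [Field k]

/-- The monoid hom into endomorphisms of `k²` attached to a matrix-valued hom. -/
noncomputable def resLinOfMat (rbar : Gal →* M2 k) : Gal →* Module.End k (Fin 2 → k) :=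
  ((Matrix.toLinAlgEquiv' : M2 k ≃ₐ[k] Module.End k (Fin 2 → k)) : M2 k →* _).comp rbar

theorem resLinOfMat_apply (rbar : Gal →* M2 k) (σ : Gal) (v : Fin 2 → k) :
    resLinOfMat rbar σ v = (rbar σ).mulVec v := rfl

theorem factors_resLinOfMat {rbar : Gal →* M2 k} (h : GaloisFactorsThroughFiniteLevel rbar) :
    GaloisFactorsThroughFiniteLevel (resLinOfMat rbar) := by
  obtain ⟨L, hL, h1⟩ := h
  refine ⟨L, hL, fun σ hσ => ?_⟩
  show (Matrix.toLinAlgEquiv' : M2 k ≃ₐ[k] Module.End k (Fin 2 → k)) (rbar σ) = 1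
  rw [h1 σ hσ, map_one]

/-- The residual representation on `k²` attached to a matrix-valued hom. -/
noncomputable def resOfMat (rbar : Gal →* M2 k) (h : GaloisFactorsThroughFiniteLevel rbar) :
    ResidualGaloisRep k where
  V := Fin 2 → k
  finrank_eq := by simp
  ρ := resLinOfMat rbar
  factorsThroughFiniteLevel := factors_resLinOfMat h

/-- Matrices of a residual representation in a basis. -/
noncomputable def resMatOf (ρ : ResidualGaloisRep k) (b : Module.Basis (Fin 2) k ρ.V) :
    Gal →* M2 k :=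
  ((LinearMap.toMatrixAlgEquiv b : Module.End k ρ.V ≃ₐ[k] M2 k) : Module.End k ρ.V →* M2 k).comp
    ρ.ρ

theorem resMatOf_apply (ρ : ResidualGaloisRep k) (b : Module.Basis (Fin 2) k ρ.V) (σ : Gal) :
    resMatOf ρ b σ = LinearMap.toMatrix b b (ρ.ρ σ) := rfl

theorem factors_resMatOf (ρ : ResidualGaloisRep k) (b : Module.Basis (Fin 2) k ρ.V) :
    GaloisFactorsThroughFiniteLevel (resMatOf ρ b) := by
  obtain ⟨L, hL, h1⟩ := ρ.factorsThroughFiniteLevel
  refine ⟨L, hL, fun σ hσ => ?_⟩
  show (LinearMap.toMatrixAlgEquiv b : Module.End k ρ.V ≃ₐ[k] M2 k) (ρ.ρ σ) = 1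
  rw [h1 σ hσ, map_one]

/-- Every residual representation is equivalent to its matrix representation in any basis. -/
noncomputable def equivResOfMatResMatOf (ρ : ResidualGaloisRep k)
    (b : Module.Basis (Fin 2) k ρ.V) :
    ResidualGaloisRep.Equiv ρ (resOfMat (resMatOf ρ b) (factors_resMatOf ρ b)) where
  toLinearEquiv := b.equivFun
  map_apply σ x := by
    show b.equivFun (ρ.ρ σ x) = (resMatOf ρ b σ).mulVec (b.equivFun x)
    rw [resMatOf_apply]
    exact (LinearMap.toMatrix_mulVec_repr b b (ρ.ρ σ) x).symm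

theorem isEquiv_resOfMat_resMatOf (ρ : ResidualGaloisRep k) (b : Module.Basis (Fin 2) k ρ.V) :
    ρ.IsEquiv (resOfMat (resMatOf ρ b) (factors_resMatOf ρ b)) :=
  ⟨equivResOfMatResMatOf ρ b⟩

theorem nonempty_basis_res (ρ : ResidualGaloisRep k) : Nonempty (Module.Basis (Fin 2) k ρ.V) :=
  ⟨Module.finBasisOfFinrankEq k ρ.V ρ.finrank_eq⟩

/-- Conjugate residual matrix representations are equivalent. -/
noncomputable def resEquivOfConj {r r' : Gal →* M2 k} (hr : GaloisFactorsThroughFiniteLevel r)
    (hr' : GaloisFactorsThroughFiniteLevel r') (g : (M2 k)ˣ)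
    (hg : ∀ σ, (g : M2 k) * r σ = r' σ * g) :
    ResidualGaloisRep.Equiv (resOfMat r hr) (resOfMat r' hr') where
  toLinearEquiv := linEquivOfUnit g
  map_apply σ x := by
    show linEquivOfUnit g ((r σ).mulVec x) = (r' σ).mulVec (linEquivOfUnit g x)
    rw [linEquivOfUnit_apply, linEquivOfUnit_apply, Matrix.mulVec_mulVec, Matrix.mulVec_mulVec,
      hg σ]

/-- Equivalence of residual matrix representations is conjugacy. -/
theorem isEquiv_resOfMat_iff {r r' : Gal →* M2 k} (hr : GaloisFactorsThroughFiniteLevel r)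
    (hr' : GaloisFactorsThroughFiniteLevel r') :
    (resOfMat r hr).IsEquiv (resOfMat r' hr') ↔
      ∃ g : (M2 k)ˣ, ∀ σ, (g : M2 k) * r σ = r' σ * g := by
  constructor
  · rintro ⟨e⟩
    let e' : (Fin 2 → k) ≃ₗ[k] (Fin 2 → k) := e.toLinearEquiv
    have he : ∀ σ (x : Fin 2 → k), e' ((r σ).mulVec x) = (r' σ).mulVec (e' x) :=
      fun σ x => e.map_apply σ x
    refine ⟨unitOfLinEquiv e', fun σ => ?_⟩
    apply Matrix.toLin'.injective
    refine LinearMap.ext fun x => ?_
    rw [Matrix.toLin'_apply, Matrix.toLin'_apply, ← Matrix.mulVec_mulVec, ← Matrix.mulVec_mulVec,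
      unitOfLinEquiv_mulVec, unitOfLinEquiv_mulVec]
    exact he σ x
  · rintro ⟨g, hg⟩
    exact ⟨resEquivOfConj hr hr' g hg⟩

theorem resOfMat_congr {r r' : Gal →* M2 k} (hr : GaloisFactorsThroughFiniteLevel r)
    (hr' : GaloisFactorsThroughFiniteLevel r') (h : ∀ σ, r σ = r' σ) :
    (resOfMat r hr).IsEquiv (resOfMat r' hr') :=
  (isEquiv_resOfMat_iff hr hr').mpr ⟨1, fun σ => by rw [Units.val_one, one_mul, mul_one, h σ]⟩

section BaseChange

variable {k' : Type} [Field k']

theorem factors_map {rbar : Gal →* M2 k} (h : GaloisFactorsThroughFiniteLevel rbar)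
    (ψ : k →+* k') :
    GaloisFactorsThroughFiniteLevel ((ψ.mapMatrix : M2 k →+* M2 k').toMonoidHom.comp rbar) := by
  obtain ⟨L, hL, h1⟩ := h
  refine ⟨L, hL, fun σ hσ => ?_⟩
  show ψ.mapMatrix (rbar σ) = 1
  rw [h1 σ hσ, map_one]

/-- Base change of a residual matrix representation. -/
noncomputable def equivBaseChangeAlongResOfMat {rbar : Gal →* M2 k}
    (h : GaloisFactorsThroughFiniteLevel rbar) (ψ : k →+* k') :
    ResidualGaloisRep.Equiv ((resOfMat rbar h).baseChangeAlong ψ)
      (resOfMat ((ψ.mapMatrix : M2 k →+* M2 k').toMonoidHom.comp rbar) (factors_map h ψ)) :=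
  letI : Algebra k k' := ψ.toAlgebra
  { toLinearEquiv := TensorProduct.piScalarRight k k' k' (Fin 2)
    map_apply := fun σ x => piScalarRight_baseChange_toLin' (rbar σ) x }

theorem baseChangeAlong_resOfMat {rbar : Gal →* M2 k}
    (h : GaloisFactorsThroughFiniteLevel rbar) (ψ : k →+* k') :
    ((resOfMat rbar h).baseChangeAlong ψ).IsEquiv
      (resOfMat ((ψ.mapMatrix : M2 k →+* M2 k').toMonoidHom.comp rbar) (factors_map h ψ)) :=
  ⟨equivBaseChangeAlongResOfMat h ψ⟩

end BaseChange

end Residual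

section AdicResidual

variable {A : Type} [CommRing A] [IsLocalRing A]

theorem factors_residue_comp {r : Gal →* M2 A} (hr : MatContinuous r) :
    GaloisFactorsThroughFiniteLevel
      (((residue A).mapMatrix : M2 A →+* M2 (ResidueField A)).toMonoidHom.comp r) := by
  obtain ⟨L, hL, h⟩ := hr 1
  refine ⟨L, hL, fun σ hσ => ?_⟩
  show (residue A).mapMatrix (r σ) = 1
  ext i j
  have h1 := h σ hσ i j
  rw [pow_one, ← residue_eq_zero_iff, Matrix.sub_apply, map_sub, sub_eq_zero] at h1
  rw [RingHom.mapMatrix_apply, Matrix.map_apply, h1, Matrix.one_apply, Matrix.one_apply]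
  split_ifs <;> simp

/-- The residual representation of a matrix representation is the matrix representation of the
reduction. -/
noncomputable def equivResidualOfMat {r : Gal →* M2 A} (hr : MatContinuous r) :
    ResidualGaloisRep.Equiv (ofMat r hr).residual
      (resOfMat (((residue A).mapMatrix : M2 A →+* M2 (ResidueField A)).toMonoidHom.comp r)
        (factors_residue_comp hr)) where
  toLinearEquiv := TensorProduct.piScalarRight A (ResidueField A) (ResidueField A) (Fin 2)
  map_apply σ x := piScalarRight_baseChange_toLin' (r σ) x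

theorem residual_ofMat {r : Gal →* M2 A} (hr : MatContinuous r) :
    (ofMat r hr).residual.IsEquiv
      (resOfMat (((residue A).mapMatrix : M2 A →+* M2 (ResidueField A)).toMonoidHom.comp r)
        (factors_residue_comp hr)) :=
  ⟨equivResidualOfMat hr⟩

end AdicResidual

section Lift

variable {A : Type} [CommRing A] [IsLocalRing A]

/-- Nakayama: if the residual representation of `ρ` is equivalent to the matrix representation
`rbar`, then `ρ` has a basis in which its matrices reduce exactly to `rbar`. -/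
theorem exists_basis_lifting (ρ : GaloisRepAdic A) {rbar : Gal →* M2 (ResidueField A)}
    (h : GaloisFactorsThroughFiniteLevel rbar) (hres : ρ.residual.IsEquiv (resOfMat rbar h)) :
    ∃ b : Module.Basis (Fin 2) A ρ.V, ∀ σ, (residue A).mapMatrix (matOf ρ b σ) = rbar σ := by
  obtain ⟨e⟩ := hres
  let e' : (ResidueField A ⊗[A] ρ.V) ≃ₗ[ResidueField A] (Fin 2 → ResidueField A) :=
    e.toLinearEquiv
  have he : ∀ (σ : Gal) (x : ResidueField A ⊗[A] ρ.V),
      e' ((ρ.ρ σ).baseChange (ResidueField A) x) = (rbar σ).mulVec (e' x) :=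
    fun σ x => e.map_apply σ x
  let bk : Module.Basis (Fin 2) (ResidueField A) (ResidueField A ⊗[A] ρ.V) :=
    (Pi.basisFun (ResidueField A) (Fin 2)).map e'.symm
  have hsurj : Function.Surjective (TensorProduct.mk A (ResidueField A) ρ.V 1) :=
    TensorProduct.mk_surjective A ρ.V (ResidueField A) residue_surjective
  choose v hv using fun i => hsurj (bk i)
  have hcomp : (TensorProduct.mk A (ResidueField A) ρ.V 1 ∘ v) = bk := funext hv
  have hli : LinearIndependent A v :=
    Module.IsLocalRing.linearIndependent_of_flat v (by rw [hcomp]; exact bk.linearIndependent)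
  have hsp : Submodule.span A (Set.range v) = ⊤ :=
    IsLocalRing.span_eq_top_of_tmul_eq_basis v bk (fun i => hv i)
  let b : Module.Basis (Fin 2) A ρ.V := Module.Basis.mk hli hsp.ge
  have hb : ∀ i, b i = v i := fun i => Module.Basis.mk_apply hli hsp.ge i
  refine ⟨b, fun σ => ?_⟩
  -- the `A`-linear map `x ↦ e' (1 ⊗ x)`
  let ψ : ρ.V →ₗ[A] (Fin 2 → ResidueField A) :=
    (e'.toLinearMap.restrictScalars A).comp (TensorProduct.mk A (ResidueField A) ρ.V 1)
  have hψ : ∀ x, ψ x = e' ((1 : ResidueField A) ⊗ₜ[A] x) := fun x => rfl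
  have hψb : ∀ i, ψ (b i) = Pi.single i 1 := by
    intro i
    rw [hψ, hb]
    have : (1 : ResidueField A) ⊗ₜ[A] v i = bk i := hv i
    rw [this]
    simp [bk]
  ext i j
  rw [RingHom.mapMatrix_apply, Matrix.map_apply, matOf_apply, LinearMap.toMatrix_apply]
  have h1 : ψ (ρ.ρ σ (b j)) = fun i => rbar σ i j := by
    rw [hψ]
    have : (1 : ResidueField A) ⊗ₜ[A] (ρ.ρ σ (b j)) =
        (ρ.ρ σ).baseChange (ResidueField A) ((1 : ResidueField A) ⊗ₜ[A] b j) := by
      rw [LinearMap.baseChange_tmul]
    rw [this, he, ← hψ, hψb]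
    ext i
    simp [Matrix.mulVec_single]
  have h2 : ψ (ρ.ρ σ (b j)) = fun i => residue A (b.repr (ρ.ρ σ (b j)) i) := by
    conv_lhs => rw [← b.sum_repr (ρ.ρ σ (b j))]
    rw [map_sum]
    ext i
    simp only [map_smul, hψb, Finset.sum_apply, Pi.smul_apply, Pi.single_apply, smul_ite,
      smul_zero, Finset.sum_ite_eq, Finset.mem_univ, if_true]
    rw [Algebra.smul_def, mul_one]
    rfl
  have h3 := congrFun (h2.symm.trans h1) i
  exact h3

variable {k : Type} [Field k]

/-- The residual representation of `ρ` is a base change of `ρbar` iff `ρ` has a basis in which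
its matrices reduce exactly to the image of the matrices of `ρbar` (in a fixed basis). -/
theorem residual_isEquiv_baseChangeAlong_iff (ρbar : ResidualGaloisRep k)
    (bbar : Module.Basis (Fin 2) k ρbar.V) (ι : k →+* ResidueField A) (ρ : GaloisRepAdic A) :
    ρ.residual.IsEquiv (ρbar.baseChangeAlong ι) ↔
      ∃ b : Module.Basis (Fin 2) A ρ.V, ∀ σ,
        (residue A).mapMatrix (matOf ρ b σ) = ι.mapMatrix (resMatOf ρbar bbar σ) := by
  have e1 : ResidualGaloisRep.Equiv (ρbar.baseChangeAlong ι)
      (resOfMat ((ι.mapMatrix : M2 k →+* M2 (ResidueField A)).toMonoidHom.comp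
        (resMatOf ρbar bbar)) (factors_map (factors_resMatOf ρbar bbar) ι)) :=
    ((equivResOfMatResMatOf ρbar bbar).baseChangeAlong ι).trans
      (equivBaseChangeAlongResOfMat (factors_resMatOf ρbar bbar) ι)
  constructor
  · rintro ⟨e⟩
    exact exists_basis_lifting ρ _ ⟨e.trans e1⟩
  · rintro ⟨b, hb⟩
    have e2 : ResidualGaloisRep.Equiv ρ.residual
        (resOfMat (((residue A).mapMatrix : M2 A →+* M2 (ResidueField A)).toMonoidHom.comp
          (matOf ρ b)) (factors_residue_comp (matContinuous_matOf ρ b))) :=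
      (equivOfMatMatOf ρ b).residual.trans (equivResidualOfMat (matContinuous_matOf ρ b))
    obtain ⟨e3⟩ := resOfMat_congr (factors_residue_comp (matContinuous_matOf ρ b))
      (factors_map (factors_resMatOf ρbar bbar) ι) hb
    exact ⟨(e2.trans e3).trans e1.symm⟩

/-- Matrix version: the residual representation of `ofMat r` is a base change of `ρbar` iff the
reduction of `r` is conjugate to the image of the matrices of `ρbar`. -/
theorem residual_ofMat_isEquiv_baseChangeAlong_iff (ρbar : ResidualGaloisRep k)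
    (bbar : Module.Basis (Fin 2) k ρbar.V) (ι : k →+* ResidueField A) {r : Gal →* M2 A}
    (hr : MatContinuous r) :
    (ofMat r hr).residual.IsEquiv (ρbar.baseChangeAlong ι) ↔
      ∃ g : (M2 (ResidueField A))ˣ, ∀ σ,
        (g : M2 (ResidueField A)) * (residue A).mapMatrix (r σ) =
          ι.mapMatrix (resMatOf ρbar bbar σ) * g := by
  have e1 : ResidualGaloisRep.Equiv (ρbar.baseChangeAlong ι)
      (resOfMat ((ι.mapMatrix : M2 k →+* M2 (ResidueField A)).toMonoidHom.comp
        (resMatOf ρbar bbar)) (factors_map (factors_resMatOf ρbar bbar) ι)) :=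
    ((equivResOfMatResMatOf ρbar bbar).baseChangeAlong ι).trans
      (equivBaseChangeAlongResOfMat (factors_resMatOf ρbar bbar) ι)
  constructor
  · rintro ⟨e⟩
    exact (isEquiv_resOfMat_iff (factors_residue_comp hr)
      (factors_map (factors_resMatOf ρbar bbar) ι)).mp
        ⟨((equivResidualOfMat hr).symm.trans e).trans e1⟩
  · intro hg
    obtain ⟨e⟩ := (isEquiv_resOfMat_iff (factors_residue_comp hr)
      (factors_map (factors_resMatOf ρbar bbar) ι)).mpr hg
    exact ⟨((equivResidualOfMat hr).trans e).trans e1.symm⟩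

/-- Invertible matrices over the residue field lift to invertible matrices. -/
theorem exists_unit_lift (g : (M2 (ResidueField A))ˣ) :
    ∃ g' : (M2 A)ˣ, (residue A).mapMatrix (g' : M2 A) = g := by
  have hsurj : Function.Surjective (residue A) := residue_surjective
  choose f hf using fun i j => hsurj ((g : M2 (ResidueField A)) i j)
  let M : M2 A := Matrix.of f
  have hM : (residue A).mapMatrix M = g := by
    ext i j
    simp [M, hf]
  have hdet : IsUnit M.det := by
    have h1 : residue A M.det = (g : M2 (ResidueField A)).det := by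
      rw [← hM]; exact RingHom.map_det _ _
    have h2 : IsUnit (g : M2 (ResidueField A)).det :=
      (Matrix.isUnit_iff_isUnit_det _).mp g.isUnit
    rw [← h1] at h2
    exact (isUnit_map_iff (residue A) _).mp h2
  obtain ⟨u, hu⟩ := (Matrix.isUnit_iff_isUnit_det M).mpr hdet
  exact ⟨u, by rw [hu, hM]⟩

end Lift

end Fermat.Agent.S53.H85
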